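/-
S33lib / NInst / Inst  (helper1)  — Project LSp, track B, block (G0), part 5: THE INSTANCE.

`HasNRedInstance N A` : the nodal reduction package of level `N` at `A` (place-level reduction datum
`N.NRedDatum` produced by `S33lib/NRed` from the function-level LSb instance, the inertia group
acting through `arithmeticGalois`, fixed lifts, a stable frame), and

  `hasNRedInstance : GoodPair M q → A.LiesOverPrime q → HasNRedInstance (M * q) A`.
-/
import Mathlib
import Fermat.Agent.S33lib.NInst.Main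
import Fermat.Agent.S33lib.NRed.Equivar
import Fermat.Agent.S33lib.N.Family
import Fermat.Agent.LSb.Unit.Final

set_option autoImplicit false
set_option linter.unusedSectionVars false
set_option linter.style.haveILetI false

noncomputable section

namespace Fermat.Agent.S33lib.NInst

open AlgebraicCurve ModularCurve Fermat.Agent.S18lib Fermat.Agent.LSb Fermat.Agent.S37lib
open Fermat.Agent.S29lib.GH

local notation "Qb" => AlgebraicClosure ℚ
local notation "GQ" => (AlgebraicClosure ℚ ≃ₐ[ℚ] AlgebraicClosure ℚ)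

/-- **The instance contract of track B** at level `N` and a valuation ring `A` of `ℚ̄`. -/
def HasNRedInstance (N : ℕ) [NeZero N] (A : ValuationSubring Qb) : Prop :=
  ∃ (F₁ F₂ : Type) (_ : Field F₁) (_ : Field F₂) (_ : Algebra (kRes A) F₁)
    (_ : Algebra (kRes A) F₂) (_ : HasPrincipalDivisors Qb (FBar N))
    (_ : HasPrincipalDivisors (kRes A) F₁) (_ : HasPrincipalDivisors (kRes A) F₂)
    (D : S33lib.N.NRedDatum A (FBar N) F₁ F₂) (g g₁ g₂ : ℕ) (S : S33lib.N.NSym D ↥(IAq A)),
    (∀ h : ↥(IAq A), S.ρ h = arithmeticGalois (modularFunctionFieldFull N) (h : GQ)) ∧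
    (∀ σ ∈ IAq A, D.nod.IsInertial (arithmeticGalois (modularFunctionFieldFull N) σ)) ∧
    S33lib.N.NLiftCtx D S g g₁ g₂

section Frame

variable {L : Type*} [Field L] {A : ValuationSubring L}
variable {F : Type*} [Field F] [Algebra L F]
variable {F₁ F₂ : Type*} [Field F₁] [Field F₂]
variable [Algebra (IsLocalRing.ResidueField A) F₁] [Algebra (IsLocalRing.ResidueField A) F₂]
variable {D : NodalDatum A F F₁ F₂} {g g₁ g₂ : ℕ} {G : Type*} [Group G]

/-- **the frame** `Y = P₁ + P₂` of the nodal reduction datum of an `LSb.NodalCtx` -/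
def nFrameOf [Infinite (IsLocalRing.ResidueField A)] [HasPrincipalDivisors L F]
    (C : NodalCtx D g g₁ g₂) (S : S33lib.N.NSym (NRed.toNRedDatum C.toNCtx) G)
    (hfix : ∀ h : G, S.ρ h • D.P₁ = D.P₁ ∧ S.ρ h • D.P₂ = D.P₂) : S33lib.N.NFrame S where
  Y := D.chartDiv 1 1
  nonneg := C.toNCtx.Y_nonneg
  smooth := fun P hP => by
    show NRed.rOf D _ _ _ _ _ P ≠ none
    rw [Ne, NRed.rOf_eq_none_iff, not_not]
    exact NRed.smoothRed_of_Y_ne_zero C.toNCtx hP
  deg_pos₁ := by
    rw [S33lib.N.NRedDatum.fst_push]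
    show 0 < Divisor.degree (S33lib.N.pushO (S33lib.N.fst? (NRed.rOf D _ _ _ _ _)) _)
    rw [← NRed.push_fst_eq_pushO, NRed.push_Y C.toNCtx]
    exact C.toNCtx.deg_pos₁
  deg_pos₂ := by
    rw [S33lib.N.NRedDatum.snd_push]
    show 0 < Divisor.degree (S33lib.N.pushO (S33lib.N.snd? (NRed.rOf D _ _ _ _ _)) _)
    rw [← NRed.push_snd_eq_pushO, NRed.push_Y C.toNCtx]
    exact C.toNCtx.deg_pos₂
  fixD := fun h => by
    show S.ρ h • ((1 : ℤ) • D.P₁ + (1 : ℤ) • D.P₂) = (1 : ℤ) • D.P₁ + (1 : ℤ) • D.P₂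
    rw [one_smul, one_smul, smul_add, (hfix h).1, (hfix h).2]

end Frame

section Modular

variable {M q : ℕ} [NeZero M] [NeZero q] [hq : Fact q.Prime] {A : ValuationSubring Qb}

/-- **the instance from the COUNT inequality** (any `q ∤ M`) -/
theorem hasNRedInstance_of_count (hqM : ¬ q ∣ M) (hA : A.LiesOverPrime q)
    (hcount : ∀ g gM : ℕ, IsCurveOfGenus Qb (FBar (M * q)) g →
      IsCurveOfGenus (IsLocalRing.ResidueField A) (FRes A M) gM →
      g + 1 ≤ gM + gM + Unit.modS (Val.gaussOne M q A hqM hA)) :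
    HasNRedInstance (M * q) A := by
  obtain ⟨g, hF, -⟩ := Gin0.exists_isCurveOfGenus_FBar (M * q)
  obtain ⟨g', hFM, -⟩ := Gin0.exists_isCurveOfGenus_FBar M
  obtain ⟨gM, hFk⟩ := S37lib.B3.exists_isCurveOfGenus_FRes A M hqM hA
  haveI : HasPrincipalDivisors Qb (FBar (M * q)) := hF.hasPrincipalDivisors
  haveI : HasPrincipalDivisors Qb (FBar M) := hFM.hasPrincipalDivisors
  haveI hpk : HasPrincipalDivisors (IsLocalRing.ResidueField A) (FRes A M) :=
    hFk.hasPrincipalDivisors
  haveI : IsAlgClosed (IsLocalRing.ResidueField A) := Gink.isAlgClosed_residueField A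
  haveI : Infinite (IsLocalRing.ResidueField A) := IsAlgClosed.instInfinite
  have h1 := Val.isGaussOne_gaussOne M q A hqM hA
  set D1 := Val.gaussOne M q A hqM hA with hD1
  have h2 := Unit.isGaussTwo_modD2 hqM D1
  have C : NodalCtx (Unit.modDatum hA D1 (Unit.modD2 hqM D1)) g gM gM :=
    Unit.modNodalCtx' hqM hA h1 hF hFk (hcount g gM hF hFk)
  have hI : ∀ σ ∈ IAq A, (Unit.modDatum hA D1 (Unit.modD2 hqM D1)).IsInertial
      (galAutBar (M * q) σ) := fun σ hσ =>
    Unit.modDatum_isInertial hqM hA h1 (fun x hx => Val.gaussOne_O_le M q A hqM hA hx) σ hσ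
  have hr : ∀ σ ∈ IAq A, ∀ P : Place Qb (FBar (M * q)),
      (NRed.toNRedDatum C.toNCtx).r (galAutBar (M * q) σ • P) =
        (NRed.toNRedDatum C.toNCtx).r P := fun σ hσ P =>
    NRed.toNRedDatum_r_smul C (hI σ hσ) P
  refine ⟨FRes A M, FRes A M, inferInstance, inferInstance, inferInstance, inferInstance,
    inferInstance, hpk, hpk, NRed.toNRedDatum C.toNCtx, g, gM, gM,
    nSymOf (NRed.toNRedDatum C.toNCtx) hI hr, fun h => rfl, hI, ?_⟩
  exact
    { ctx := C
      infinite_k := inferInstance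
      lifts := nSymOf_hasFixedLifts hqM hA (NRed.toNRedDatum C.toNCtx) hI hr h1 h2 hF
      frame := ⟨nFrameOf C _ fun h => ⟨(hI h.1 h.2).smul_P₁, (hI h.1 h.2).smul_P₂⟩⟩ }

end Modular

/-- **THE INSTANCE at every good pair** -/
theorem hasNRedInstance {M q : ℕ} (hM : 0 < M) (hq : q.Prime) (hqM : ¬ q ∣ M)
    (hgood : GoodPair M q) (A : ValuationSubring Qb) (hA : A.LiesOverPrime q) :
    haveI : NeZero (M * q) := ⟨Nat.mul_ne_zero hM.ne' hq.ne_zero⟩
    HasNRedInstance (M * q) A := by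
  haveI : NeZero M := ⟨hM.ne'⟩
  haveI : NeZero q := ⟨hq.ne_zero⟩
  haveI : Fact q.Prime := ⟨hq⟩
  rcases hgood with h5 | ⟨rfl, h9⟩ | ⟨rfl, h4⟩
  · exact hasNRedInstance_of_count hqM hA fun g gM hF hFk =>
      Unit.mod_count_five_le h5 hqM hA (Val.isGaussOne_gaussOne M q A hqM hA) hF hFk
  · exact hasNRedInstance_of_count hqM hA fun g gM hF hFk =>
      Count23.count_two h9 hqM hA (Val.isGaussOne_gaussOne M 2 A hqM hA) hF hFk
  · exact hasNRedInstance_of_count hqM hA fun g gM hF hFk =>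
      Count23.count_three h4 hqM hA (Val.isGaussOne_gaussOne M 3 A hqM hA) hF hFk

end Fermat.Agent.S33lib.NInst
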