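/-
S33lib / NInst / Arith  (helper2)

Elementary arithmetic for the final assembly of track B: an odd prime `p ∥ N` (with `4 ∣ N` when
`p = 3`) gives a GOOD pair `(M, p)`, `N = M * p`, in the sense of `LSb.GoodPair`.
-/
import Fermat.Agent.LSb.Main

set_option autoImplicit false

namespace Fermat.Agent.S33lib.NInst

open Fermat.Agent.LSb

/-- an odd prime is `3` or at least `5` -/
theorem five_le_of_prime_of_ne {p : ℕ} (hp : p.Prime) (hp2 : p ≠ 2) (hp3 : p ≠ 3) : 5 ≤ p := by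
  by_contra hlt
  have h5 : p < 5 := Nat.lt_of_not_le hlt
  have h2 := hp.two_le
  interval_cases p
  · exact hp2 rfl
  · exact hp3 rfl
  · exact absurd hp (by decide)

/-- **the good pair of an odd prime `p ∥ N`** (with `4 ∣ N` if `p = 3`) -/
theorem exists_goodPair_of_odd {N p : ℕ} (hp : p.Prime) (hp2 : p ≠ 2) (hpN : p ∣ N)
    (hp2N : ¬ p ^ 2 ∣ N) (h3 : p = 3 → 4 ∣ N) (hN : N ≠ 0) :
    ∃ M : ℕ, N = M * p ∧ 0 < M ∧ ¬ p ∣ M ∧ GoodPair M p := by
  obtain ⟨M, rfl, hM⟩ := exists_eq_mul_of_exact_dvd hpN hp2N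
  refine ⟨M, rfl, Nat.pos_of_ne_zero ?_, hM, ?_⟩
  · rintro rfl
    exact hN (Nat.zero_mul p)
  · by_cases h : p = 3
    · subst h
      exact Or.inr (Or.inr ⟨rfl, (four_dvd_mul_three_iff M).1 (h3 rfl)⟩)
    · exact Or.inl (five_le_of_prime_of_ne hp hp2 h)

/-- the same with the level written as `M * p` from the start -/
theorem goodPair_of_odd {M p : ℕ} (hp : p.Prime) (hp2 : p ≠ 2) (h3 : p = 3 → 4 ∣ M * p) :
    GoodPair M p := by
  by_cases h : p = 3
  · subst h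
    exact Or.inr (Or.inr ⟨rfl, (four_dvd_mul_three_iff M).1 (h3 rfl)⟩)
  · exact Or.inl (five_le_of_prime_of_ne hp hp2 h)

end Fermat.Agent.S33lib.NInst
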