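/-
S33lib / NInst / FixedLift  (helper1)  — Project LSp, track B, block (G0), part 1.

**Inertia-fixed lifts for the sup-norm pair of level `M q`** (`q ∤ M`, `A ∣ q`): for every
inertia-stable divisor `E` of `FBar (M q)`, every element of `L(E) ∩ O₁ ∩ O₂` has an
INERTIA-FIXED element of `L(E) ∩ O₁ ∩ O₂` with the same two reductions.

Speiser (`S36lib/Fin/ChartFam.finrank_fixL`) + the `K`-rational sup-norm frames of
`S36lib/Desc2` (`exists_fixed_liftS`, `hasOrthonormalBasesS_restrict`), for an arbitrary pair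
`D1 D2` with `IsGaussOne D1`, `IsGaussTwo D1 D2 w_q` (in particular for the pair
`gaussOne`, `modD2 gaussOne` of the LSb nodal instance).
-/
import Mathlib
import Fermat.Agent.S36lib.Desc2.Places
import Fermat.Agent.S36lib.Fin.ChartFam

set_option autoImplicit false
set_option linter.unusedSectionVars false
set_option linter.unusedVariables false
set_option linter.style.haveILetI false

noncomputable section

namespace Fermat.Agent.S33lib.NInst

open AlgebraicCurve ModularCurve Fermat.Agent.S18lib Fermat.Agent.S18lib.V Fermat.Agent.S13lib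
open Fermat.Agent.S29lib.GH Fermat.Agent.S36lib Fermat.Agent.S36lib.Desc Fermat.Agent.S36lib.Desc2
open IsLocalRing Fermat.Agent.LSb.Val Fermat.Agent.LSb.Frame Fermat.Agent.LSb.Old

local notation "Qb" => AlgebraicClosure ℚ
local notation "GQ" => (AlgebraicClosure ℚ ≃ₐ[ℚ] AlgebraicClosure ℚ)

variable {M q : ℕ} [NeZero M] [NeZero q] [hq : Fact q.Prime] {A : ValuationSubring Qb}
variable {D1 D2 : GaussDatum A (FBar (M * q)) (FRes A M)}

/-- **inertia-fixed lifts for the sup-norm pair of level `M q`** -/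
theorem exists_fixed_lift_pair (hqM : ¬ q ∣ M) (hA : A.LiesOverPrime q) (h1 : IsGaussOne D1)
    (h2 : IsGaussTwo D1 D2
      ((wq M q hq.out hqM : FBar (M * q) ≃ₐ[Qb] FBar (M * q)) : FBar (M * q) →+* FBar (M * q)))
    {g : ℕ} (hF : IsCurveOfGenus Qb (FBar (M * q)) g)
    {E : Divisor Qb (FBar (M * q))}
    (hE : Fin.IsStableDiv (M * q) (A.inertiaSubgroupIn ℚ) E)
    {f : FBar (M * q)} (hfE : f ∈ riemannRochSpace E) (hf1 : f ∈ D1.O) (hf2 : f ∈ D2.O) :
    ∃ f' ∈ riemannRochSpace E, f' ∈ D1.O ∧ f' ∈ D2.O ∧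
      f' ∈ fixF (M * q) (A.inertiaSubgroupIn ℚ) ∧ D1.redF f' = D1.redF f ∧
        D2.redF f' = D2.redF f := by
  have hq' : q.Prime := hq.out
  have r1 := restrictHyp_of_isGaussOne hA h1
  have r2 := restrictHyp_of_isGaussTwo hqM hA h1 h2
  have hN1 : HasOrthonormalBasesS (restrictDatum r1) (restrictDatum r2) :=
    hasOrthonormalBasesS_restrict hq' hA r1 r2
      (modular_hasOrthonormalBasesS hqM hA h1 h2 (fun x => wq_wq M q hq.out hqM x))
  have : FiniteDimensional Qb (riemannRochSpace E) := hF.finiteDimensional E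
  have : FiniteDimensional (fixK (A.inertiaSubgroupIn ℚ))
      (Fin.fixL (M * q) (A.inertiaSubgroupIn ℚ) E) := Fin.finiteDimensional_fixL hF hE
  obtain ⟨y, hyW, hyO, hyred⟩ := exists_fixed_liftS (descentBase_Wfix hq' hA)
    (residueSurj_Wfix hq' hA) (algCompat_of_resCompat (resCompat_resAlgebraOn A _))
    (algCompat_of_resCompat (resCompat_resAlgebraOn A _))
    (compat_restrictDatum r1) (compat_restrictDatum r2) hN1
    (riemannRochSpace E) (Fin.fixL (M * q) (A.inertiaSubgroupIn ℚ) E) (fun x => Fin.mem_fixL)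
    (Fin.finrank_fixL hE) hfE (mem_supO.2 ⟨hf1, hf2⟩)
  have hyO' := mem_supO.1 hyO
  refine ⟨(y : FBar (M * q)), Fin.mem_fixL.1 hyW, (mem_restrictDatum_O r1).1 hyO'.1,
    (mem_restrictDatum_O r2).1 hyO'.2, y.2, ?_, ?_⟩
  · exact (restrictDatum_redF r1 y).symm.trans (congrArg Prod.fst hyred)
  · exact (restrictDatum_redF r2 y).symm.trans (congrArg Prod.snd hyred)

end Fermat.Agent.S33lib.NInst
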