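/-
S33lib / NInst / Sym  (helper1)  — Project LSp, track B, block (G0), part 2.

**The inertia group of `A` as a group of symmetries of a nodal reduction datum on `FBar N`.**

* `inertiaRho N A`  : `I_A → SemilinearAut ℚ̄ (FBar N)`, the coefficientwise Galois action;
* `inertiaAct N A`  : the `S33lib.N.IAct` structure (inertia preserves `A`, trivial on its residue field);
* `nSymOf D hI hr`  : the `S33lib.N.NSym` structure on an `NRedDatum` whose function-level part is inertial
                      (`LSb.NodalDatum.IsInertial`, supplied by `LSb/Kum/Inertial`) and whose place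
                      map is inertia-invariant (`hr`, supplied by `S33lib/NRed`);
* `fixD_iff`, `fixF_iff` : the dictionary with the stability notions of `S36lib` (`IsStableDiv`,
                      `fixF`).
-/
import Mathlib
import Fermat.Agent.S33lib.N.Datum
import Fermat.Agent.S36lib.Fin.ChartFam
import Fermat.Agent.S37lib.C0.Decomp

set_option autoImplicit false
set_option linter.unusedSectionVars false

noncomputable section

namespace Fermat.Agent.S33lib.NInst

open AlgebraicCurve ModularCurve Fermat.Agent.S18lib Fermat.Agent.LSb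
open Fermat.Agent.S29lib.GH Fermat.Agent.S36lib Fermat.Agent.S36lib.Desc2

local notation "Qb" => AlgebraicClosure ℚ
local notation "GQ" => (AlgebraicClosure ℚ ≃ₐ[ℚ] AlgebraicClosure ℚ)

variable (N : ℕ) [NeZero N] (A : ValuationSubring Qb)

/-- the inertia group of `A`, inside `G_ℚ` -/
abbrev IAq : Subgroup GQ := A.inertiaSubgroupIn ℚ

/-- the coefficientwise action of the inertia group on `FBar N` -/
def inertiaRho : ↥(IAq A) →* SemilinearAut Qb (FBar N) :=
  (arithmeticGalois (modularFunctionFieldFull N)).comp (Subgroup.subtype (IAq A))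

theorem inertiaRho_apply (g : ↥(IAq A)) : inertiaRho N A g = galAutBar N (g : GQ) := rfl

theorem baseAut_inertiaRho (g : ↥(IAq A)) (a : Qb) :
    SemilinearAut.baseAut (inertiaRho N A g) a = (g : GQ) a := by
  rw [inertiaRho_apply, baseAut_arithmeticGalois]
  rfl

variable {A}

/-- inertia elements lie in the decomposition group -/
theorem exists_decomp_of_mem_inertia {σ : GQ} (hσ : σ ∈ IAq A) :
    ∃ g : ValuationSubring.decompositionSubgroup ℚ A,
      g ∈ ValuationSubring.inertiaSubgroup ℚ A ∧ (g : GQ) = σ := by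
  obtain ⟨g, hg, rfl⟩ := hσ
  exact ⟨g, hg, rfl⟩

theorem inertia_mem_A {σ : GQ} (hσ : σ ∈ IAq A) {a : Qb} (ha : a ∈ A) : σ a ∈ A := by
  obtain ⟨g, -, rfl⟩ := exists_decomp_of_mem_inertia hσ
  exact (S37lib.C0.sigmaA A g ⟨a, ha⟩).2

theorem inertia_residue {σ : GQ} (hσ : σ ∈ IAq A) (a : A) :
    IsLocalRing.residue A ⟨σ (a : Qb), inertia_mem_A hσ a.2⟩ = IsLocalRing.residue A a := by
  obtain ⟨g, hg, rfl⟩ := exists_decomp_of_mem_inertia hσ
  have h := S37lib.C0.residue_sigmaA A g a
  rw [S37lib.C0.sigmaBar_eq_one_of_mem_inertia A hg] at h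
  exact h

variable (A)

/-- **the inertia action** on `FBar N` -/
def inertiaAct : S33lib.N.IAct A (FBar N) ↥(IAq A) where
  ρ := inertiaRho N A
  mem_A := fun g a ha => by
    rw [baseAut_inertiaRho]
    exact inertia_mem_A g.2 ha
  residue_base := fun g a => by
    have h := inertia_residue g.2 a
    convert h using 3
    exact baseAut_inertiaRho N A g (a : Qb)

variable {N A}

section Dict

/-- stable divisors: dictionary with `S36lib` -/
theorem fixD_iff {E : Divisor Qb (FBar N)} :
    (inertiaAct N A).FixD E ↔ Fin.IsStableDiv N (IAq A) E :=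
  ⟨fun h σ hσ => h ⟨σ, hσ⟩, fun h g => h g.1 g.2⟩

/-- fixed functions: dictionary with `S36lib` -/
theorem fixF_iff {f : FBar N} : (inertiaAct N A).FixF f ↔ f ∈ fixF N (IAq A) := by
  rw [mem_fixF]
  exact ⟨fun h σ hσ => h ⟨σ, hσ⟩, fun h g => h g.1 g.2⟩

end Dict

section NSym

variable [HasPrincipalDivisors Qb (FBar N)]
variable {F₁ F₂ : Type*} [Field F₁] [Field F₂]
variable [Algebra (IsLocalRing.ResidueField A) F₁] [Algebra (IsLocalRing.ResidueField A) F₂]

/-- **the inertia symmetries of a nodal reduction datum** whose function-level part is inertial and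
whose place map is inertia-invariant -/
def nSymOf (D : S33lib.N.NRedDatum A (FBar N) F₁ F₂)
    (hI : ∀ σ ∈ IAq A, D.nod.IsInertial (galAutBar N σ))
    (hr : ∀ σ ∈ IAq A, ∀ P : Place Qb (FBar N), D.r (galAutBar N σ • P) = D.r P) :
    S33lib.N.NSym D ↥(IAq A) where
  toIAct := inertiaAct N A
  mem_O₁ := fun g f hf => ((hI g.1 g.2).mem₁ f).2 hf
  mem_O₂ := fun g f hf => ((hI g.1 g.2).mem₂ f).2 hf
  redF₁_smul := fun g f hf => (hI g.1 g.2).red₁ f hf
  redF₂_smul := fun g f hf => (hI g.1 g.2).red₂ f hf
  r_smul := fun g P => hr g.1 g.2 P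

theorem nSymOf_ρ (D : S33lib.N.NRedDatum A (FBar N) F₁ F₂)
    (hI : ∀ σ ∈ IAq A, D.nod.IsInertial (galAutBar N σ))
    (hr : ∀ σ ∈ IAq A, ∀ P : Place Qb (FBar N), D.r (galAutBar N σ • P) = D.r P)
    (g : ↥(IAq A)) : (nSymOf D hI hr).ρ g = galAutBar N (g : GQ) := rfl

end NSym

end Fermat.Agent.S33lib.NInst
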