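/-
S33lib / NInst / Main  (helper1)  — Project LSp, track B, block (G0), part 3.

`HasFixedLifts` for the inertia symmetries `nSymOf` of a nodal reduction datum of level `M q` whose two
Gauss data satisfy (H1), (H2) (`IsGaussOne`, `IsGaussTwo … w_q`).
-/
import Mathlib
import Fermat.Agent.S33lib.NInst.Sym
import Fermat.Agent.S33lib.NInst.FixedLift

set_option autoImplicit false
set_option linter.unusedSectionVars false

noncomputable section

namespace Fermat.Agent.S33lib.NInst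

open AlgebraicCurve ModularCurve Fermat.Agent.S18lib Fermat.Agent.LSb
open Fermat.Agent.S29lib.GH Fermat.Agent.S36lib Fermat.Agent.S36lib.Desc2
open Fermat.Agent.LSb.Val Fermat.Agent.LSb.Old

local notation "Qb" => AlgebraicClosure ℚ
local notation "GQ" => (AlgebraicClosure ℚ ≃ₐ[ℚ] AlgebraicClosure ℚ)

variable {M q : ℕ} [NeZero M] [NeZero q] [hq : Fact q.Prime] {A : ValuationSubring Qb}
variable [HasPrincipalDivisors Qb (FBar (M * q))]

/-- **fixed lifts** for the inertia symmetries of a nodal reduction datum of level `M q` -/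
theorem nSymOf_hasFixedLifts (hqM : ¬ q ∣ M) (hA : A.LiesOverPrime q)
    (D : S33lib.N.NRedDatum A (FBar (M * q)) (FRes A M) (FRes A M))
    (hI : ∀ σ ∈ IAq A, D.nod.IsInertial (galAutBar (M * q) σ))
    (hr : ∀ σ ∈ IAq A, ∀ P : Place Qb (FBar (M * q)), D.r (galAutBar (M * q) σ • P) = D.r P)
    (h1 : IsGaussOne D.nod.V₁)
    (h2 : IsGaussTwo D.nod.V₁ D.nod.V₂
      ((wq M q hq.out hqM : FBar (M * q) ≃ₐ[Qb] FBar (M * q)) : FBar (M * q) →+* FBar (M * q)))
    {g : ℕ} (hF : IsCurveOfGenus Qb (FBar (M * q)) g) :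
    (nSymOf D hI hr).HasFixedLifts := by
  intro E hE f hfE hf1 hf2
  have hE' : Fin.IsStableDiv (M * q) (IAq A) E := fixD_iff.1 hE
  obtain ⟨f', hf'E, hf'1, hf'2, hfix, hr1, hr2⟩ :=
    exists_fixed_lift_pair hqM hA h1 h2 hF hE' hfE hf1 hf2
  exact ⟨f', hf'E, hf'1, hf'2, fixF_iff.2 hfix, hr1, hr2⟩

end Fermat.Agent.S33lib.NInst
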